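/-
S37lib / B1 / GenusAux  (helper9)

**Unconditional genus equality at the auxiliary levels, for EVERY prime `ℓ`.**
`Mod23/MuLine.lean` states the squeeze over the `μ₄`-line only for `ℓ = 3` and over the `μ₉`-line
only for `ℓ = 2` (because (S1) was needed there); the genus equality (S2) itself only uses
`2 ≠ 0` resp. `3 ≠ 0` in the residue field, which follows from `4 ∣ N`, `ℓ ∤ N` resp. `9 ∣ N`,
`ℓ ∤ N`:

* `exists_genus_of_four_dvd` : `4 ∣ N`, `ℓ ∤ N` ⇒ `∃ g, IsCurveOfGenus Q̄ (FBar N) g ∧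
  IsCurveOfGenus k (FRes A N) g`;
* `exists_genus_of_nine_dvd` : the same for `9 ∣ N`;
* `exists_aux_level` : for every `N` and `ℓ ∤ N` a multiple `N'` of `N` (`4N` or `9N`), prime to
  `ℓ`, with equal genera on both sides.
No hypothesis `ReductionInputsModL` anywhere.
-/
import Mathlib
import Fermat.Agent.S18lib.Mod23.MuLineMain

set_option autoImplicit false
set_option linter.style.haveILetI false
set_option linter.unusedSectionVars false

noncomputable section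

namespace Fermat.Agent.S37lib.B1

open AlgebraicCurve ModularCurve IntermediateField Polynomial Module
open Fermat.Agent.S18lib

variable (N : ℕ) [NeZero N] {ℓ : ℕ} [Fact ℓ.Prime]
variable (A : ValuationSubring (AlgebraicClosure ℚ))

local notation "Qb" => AlgebraicClosure ℚ

/-- the squeeze over the `μ₄`-line, any residue characteristic `ℓ ∤ N`, `4 ∣ N`. -/
theorem squeeze_four (hℓN : ¬ ℓ ∣ N) (hA : A.LiesOverPrime ℓ) (hN : 4 ∣ N) :
    (∃ g' : ℕ, IsCurveOfGenus Qb (FBar N) g' ∧ IsCurveOfGenus (kRes A) (FRes A N) g') ∧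
    Nat.card (Tame.polesOf (K := kRes A) (Gink.jK A N)) = cuspCount N ∧
    ∀ a : kRes A, a ∉ RRgen.PoleDict.S4 (kRes A) → ∀ v : Place (kRes A) (FRes A N),
      0 < v.ord (Haupt.mu4K N hA hℓN hN - algebraMap (kRes A) (FRes A N) a) →
      v.ord (Haupt.mu4K N hA hℓN hN - algebraMap (kRes A) (FRes A N) a) = 1 := by
  have hcusp := Gink.card_polesOf_jK_le A N hA hℓN
  obtain ⟨g, hF, hg⟩ := Gin0.exists_isCurveOfGenus_FBar N
  have h12 := Gin0.rh_of_four_dvd N hN hg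
  have hx : Transcendental (kRes A) (Gink.jK A N) := Gink.transcendental_jK A N
  haveI : Algebra.IsSeparable (kRes A)⟮Gink.jK A N⟯ (FRes A N) := Gink.isSeparable_jK A N hA hℓN
  have hFk : IsCurveOfGenus (kRes A) (FRes A N) (RRgen.Canonical.genusOf (kRes A) hx) :=
    RRgen.Canonical.isCurveOfGenus_genusOf (kRes A) hx
  set gk := RRgen.Canonical.genusOf (kRes A) hx with hgk
  have hle : gk ≤ g := Mod23.genus_le_level N A hℓN hA hF hFk
  have hℓ2 : ¬ ℓ ∣ 2 := fun h => hℓN ((h.trans (by norm_num : (2 : ℕ) ∣ 4)).trans hN)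
  have h2 : (2 : kRes A) ≠ 0 := by
    have := Gink.natCast_ne_zero_kRes (A := A) hA (n := 2) hℓ2
    exact_mod_cast this
  have hrel := Haupt.jK_mul_mu4K N hA hℓN hN
  have hμ : Transcendental (kRes A) (Haupt.mu4K N hA hℓN hN) :=
    Haupt.transcendental_mu4K N hA hℓN hN
  have hn := RRgen.Luroth.finrank_of_mu4 (kRes A) hμ h2 hrel
  have hψ : dedekindPsi N = 6 * finrank (kRes A)⟮Haupt.mu4K N hA hℓN hN⟯ (FRes A N) := by
    rw [← hn, Gink.finrank_jK A N hA hℓN]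
  set n := finrank (kRes A)⟮Haupt.mu4K N hA hℓN hN⟯ (FRes A N) with hndef
  have hgg : 2 * (g : ℤ) - 2 = (n : ℤ) - cuspCount N := by
    have : (dedekindPsi N : ℤ) = 6 * n := by exact_mod_cast hψ
    rw [this] at h12
    linarith
  have hgle : 2 * (gk : ℤ) - 2 ≤ (n : ℤ) - cuspCount N := by
    have : (gk : ℤ) ≤ g := by exact_mod_cast hle
    linarith
  obtain ⟨-, -, -, -, h5, h6, h7⟩ := RRgen.SqueezeFree.squeeze_mu4 (kRes A) hx h2 hrel
    (cuspCount N) hcusp hFk n hn hgle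
  have hgeq : gk = g := by
    have : (gk : ℤ) = g := by linarith
    exact_mod_cast this
  exact ⟨⟨g, hF, hgeq ▸ hFk⟩, h6, h7⟩

/-- the squeeze over the `μ₉`-line, any residue characteristic `ℓ ∤ N`, `9 ∣ N`. -/
theorem squeeze_nine (hℓN : ¬ ℓ ∣ N) (hA : A.LiesOverPrime ℓ) (hN : 9 ∣ N) :
    (∃ g' : ℕ, IsCurveOfGenus Qb (FBar N) g' ∧ IsCurveOfGenus (kRes A) (FRes A N) g') ∧
    Nat.card (Tame.polesOf (K := kRes A) (Gink.jK A N)) = cuspCount N ∧
    ∀ a : kRes A, a ∉ RRgen.PoleDict.S9 (kRes A) → ∀ v : Place (kRes A) (FRes A N),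
      0 < v.ord (Haupt.mu9K N hA hℓN hN - algebraMap (kRes A) (FRes A N) a) →
      v.ord (Haupt.mu9K N hA hℓN hN - algebraMap (kRes A) (FRes A N) a) = 1 := by
  have hcusp := Gink.card_polesOf_jK_le A N hA hℓN
  obtain ⟨g, hF, hg⟩ := Gin0.exists_isCurveOfGenus_FBar N
  have h12 := Gin0.rh_of_nine_dvd N hN hg
  have hx : Transcendental (kRes A) (Gink.jK A N) := Gink.transcendental_jK A N
  haveI : Algebra.IsSeparable (kRes A)⟮Gink.jK A N⟯ (FRes A N) := Gink.isSeparable_jK A N hA hℓN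
  have hFk : IsCurveOfGenus (kRes A) (FRes A N) (RRgen.Canonical.genusOf (kRes A) hx) :=
    RRgen.Canonical.isCurveOfGenus_genusOf (kRes A) hx
  set gk := RRgen.Canonical.genusOf (kRes A) hx with hgk
  have hle : gk ≤ g := Mod23.genus_le_level N A hℓN hA hF hFk
  have hℓ3 : ¬ ℓ ∣ 3 := fun h => hℓN ((h.trans (by norm_num : (3 : ℕ) ∣ 9)).trans hN)
  have h3 : (3 : kRes A) ≠ 0 := by
    have := Gink.natCast_ne_zero_kRes (A := A) hA (n := 3) hℓ3
    exact_mod_cast this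
  have hrel := Haupt.jK_mul_mu9K N hA hℓN hN
  have hμ : Transcendental (kRes A) (Haupt.mu9K N hA hℓN hN) :=
    Haupt.transcendental_mu9K N hA hℓN hN
  have hn := RRgen.Luroth.finrank_of_mu9 (kRes A) hμ h3 hrel
  have hψ : dedekindPsi N = 12 * finrank (kRes A)⟮Haupt.mu9K N hA hℓN hN⟯ (FRes A N) := by
    rw [← hn, Gink.finrank_jK A N hA hℓN]
  set n := finrank (kRes A)⟮Haupt.mu9K N hA hℓN hN⟯ (FRes A N) with hndef
  have hgg : 2 * (g : ℤ) - 2 = 2 * (n : ℤ) - cuspCount N := by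
    have : (dedekindPsi N : ℤ) = 12 * n := by exact_mod_cast hψ
    rw [this] at h12
    linarith
  have hgle : 2 * (gk : ℤ) - 2 ≤ 2 * (n : ℤ) - cuspCount N := by
    have : (gk : ℤ) ≤ g := by exact_mod_cast hle
    linarith
  obtain ⟨-, -, -, -, h5, h6, h7⟩ := RRgen.SqueezeFree.squeeze_mu9 (kRes A) hx h3 hrel
    (cuspCount N) hcusp hFk n hn hgle
  have hgeq : gk = g := by
    have : (gk : ℤ) = g := by linarith
    exact_mod_cast this
  exact ⟨⟨g, hF, hgeq ▸ hFk⟩, h6, h7⟩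

/-- **genus equality at levels divisible by `4`** (any `ℓ ∤ N`). -/
theorem exists_genus_of_four_dvd (hℓN : ¬ ℓ ∣ N) (hA : A.LiesOverPrime ℓ) (hN : 4 ∣ N) :
    ∃ g' : ℕ, IsCurveOfGenus Qb (FBar N) g' ∧ IsCurveOfGenus (kRes A) (FRes A N) g' :=
  (squeeze_four N A hℓN hA hN).1

/-- **genus equality at levels divisible by `9`** (any `ℓ ∤ N`). -/
theorem exists_genus_of_nine_dvd (hℓN : ¬ ℓ ∣ N) (hA : A.LiesOverPrime ℓ) (hN : 9 ∣ N) :
    ∃ g' : ℕ, IsCurveOfGenus Qb (FBar N) g' ∧ IsCurveOfGenus (kRes A) (FRes A N) g' :=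
  (squeeze_nine N A hℓN hA hN).1

/-- **an auxiliary level with equal genera**: for every `N` and every prime `ℓ ∤ N` there is a
multiple `N'` of `N` (namely `4N` for `ℓ ≠ 2`, `9N` for `ℓ = 2`), prime to `ℓ`, such that
`FBar N'` and `FRes A N'` have the same genus. -/
theorem exists_aux_level (hℓN : ¬ ℓ ∣ N) (hA : A.LiesOverPrime ℓ) :
    ∃ (N' : ℕ) (_ : NeZero N'), N ∣ N' ∧ ¬ ℓ ∣ N' ∧ (4 ∣ N' ∨ 9 ∣ N') ∧
      ∃ g' : ℕ, IsCurveOfGenus Qb (FBar N') g' ∧ IsCurveOfGenus (kRes A) (FRes A N') g' := by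
  have hℓ : ℓ.Prime := Fact.out
  by_cases h2 : ℓ = 2
  · have hℓN' : ¬ ℓ ∣ 9 * N := by
      intro h
      rcases (Nat.Prime.dvd_mul hℓ).mp h with h9 | hN
      · rw [h2] at h9; exact absurd h9 (by norm_num)
      · exact hℓN hN
    exact ⟨9 * N, inferInstance, Dvd.intro_left 9 rfl, hℓN', Or.inr (Dvd.intro N rfl),
      exists_genus_of_nine_dvd (9 * N) A hℓN' hA (Dvd.intro N rfl)⟩
  · have hℓN' : ¬ ℓ ∣ 4 * N := by
      intro h
      rcases (Nat.Prime.dvd_mul hℓ).mp h with h4 | hN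
      · have h22 : ℓ ∣ 2 * 2 := by norm_num; exact h4
        rcases (Nat.Prime.dvd_mul hℓ).mp h22 with h' | h' <;>
          exact h2 ((Nat.prime_dvd_prime_iff_eq hℓ Nat.prime_two).mp h')
      · exact hℓN hN
    exact ⟨4 * N, inferInstance, Dvd.intro_left 4 rfl, hℓN', Or.inl (Dvd.intro N rfl),
      exists_genus_of_four_dvd (4 * N) A hℓN' hA (Dvd.intro N rfl)⟩

end Fermat.Agent.S37lib.B1
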