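/-
S37lib / B1 / PGI  (helper9)

**`PrincipalGeneratedByIntegral A (residue A) N`, unconditionally** (`ℓ ∤ N`, `A` over `ℓ`): every
principal divisor of `FBar N` is a difference of two divisors of integral modular functions with
nonzero reduction.  From `V.exists_decomp_U` (`f = c · a / b`).  This is the second half of
`ReductionInputsModL A N`.
-/
import Mathlib
import Fermat.Agent.S18lib.V.GaussU.Decomp
import Fermat.Agent.S18lib.Setup.DatumDiv
import Fermat.Agent.S18lib.Gin0.Genus

set_option autoImplicit false
set_option linter.unusedSectionVars false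

noncomputable section

namespace Fermat.Agent.S37lib.B1

open AlgebraicCurve ModularCurve
open Fermat.Agent.S18lib

variable (N : ℕ) [NeZero N] {ℓ : ℕ} [Fact ℓ.Prime]
variable (A : ValuationSubring (AlgebraicClosure ℚ))

local notation "Qb" => AlgebraicClosure ℚ

/-- the divisor of an integral modular function with nonzero reduction is an
`integralPrincipalDivisor`. -/
theorem mem_integralPrincipalDivisors (a : V.IntRing N A) (ha : V.elemK a ≠ 0)
    (D : Divisor Qb (FBar N)) (hD : ∀ P : Place Qb (FBar N), D P = P.ord (V.elemL a)) :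
    D ∈ integralPrincipalDivisors A (IsLocalRing.residue A) N := by
  refine ⟨a.1, a.2.1, a.2.2, fun h0 => ha (Subtype.ext h0), fun P => ?_⟩
  rw [hD P]
  rfl

/-- **`PrincipalGeneratedByIntegral`, unconditional.** -/
theorem principalGeneratedByIntegral (hℓN : ¬ ℓ ∣ N) (hA : A.LiesOverPrime ℓ) :
    PrincipalGeneratedByIntegral A (IsLocalRing.residue A) N := by
  intro D hD
  obtain ⟨f, hf, hDf⟩ := hD
  obtain ⟨c, a, b, hc, ha, hb, hfab⟩ := V.exists_decomp_U N ℓ A hℓN hA (f := f) hf
  obtain ⟨g, hF, -⟩ := Gin0.exists_isCurveOfGenus_FBar N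
  haveI := hF.hasPrincipalDivisors
  have haL : V.elemL a ≠ 0 := by
    intro h0
    apply ha
    have : a = 0 := by
      apply Subtype.ext
      apply V.toL_injective
      have := congrArg Subtype.val h0
      simpa using this
    rw [this, V.elemK_zero]
  have hbL : V.elemL b ≠ 0 := by
    intro h0
    apply hb
    have : b = 0 := by
      apply Subtype.ext
      apply V.toL_injective
      have := congrArg Subtype.val h0
      simpa using this
    rw [this, V.elemK_zero]
  obtain ⟨Da, hDa, -⟩ := HasPrincipalDivisors.exists_divisor (K := Qb) (V.elemL a) haL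
  obtain ⟨Db, hDb, -⟩ := HasPrincipalDivisors.exists_divisor (K := Qb) (V.elemL b) hbL
  have hcL : algebraMap Qb (FBar N) c ≠ 0 := by
    rw [Ne, map_eq_zero_iff _ (algebraMap Qb (FBar N)).injective]
    exact hc
  have hDeq : D = Da - Db := by
    ext P
    rw [Finsupp.sub_apply, hDf P, hDa P, hDb P]
    have h1 := congrArg P.ord hfab
    rw [P.ord_mul hf hbL, P.ord_mul hcL haL, ord_algebraMap_eq_zero P hc, zero_add] at h1
    linarith
  rw [hDeq]
  exact sub_mem (AddSubgroup.subset_closure (mem_integralPrincipalDivisors N A a ha Da hDa))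
    (AddSubgroup.subset_closure (mem_integralPrincipalDivisors N A b hb Db hDb))

end Fermat.Agent.S37lib.B1
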